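import Fermat.Statements.S02
-- import your own Fermat.Agent.* helpers here

set_option autoImplicit false
open FreyPackage

namespace Fermat.Agent.S02

/-- Step 3: `b` even, `a` odd, coprime. -/
theorem step3 (a b c : ℤ) (ha : a ≠ 0) (hb : b ≠ 0) (hc : c ≠ 0) (p : ℕ) (pp : p.Prime)
    (hp5 : 5 ≤ p) (H : a ^ p + b ^ p = c ^ p) (hg : gcd a b = 1) (hb2 : (2 : ℤ) ∣ b) :
    Nonempty FreyPackage := by
  have hpodd : Odd p := pp.odd_of_ne_two (by omega)
  have hb2' : (b : ZMod 2) = 0 := (ZMod.intCast_zmod_eq_zero_iff_dvd b 2).2 hb2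
  have ha2 : ¬ (2 : ℤ) ∣ a := by
    intro h
    have : (2 : ℤ) ∣ gcd a b := dvd_gcd h hb2
    rw [hg] at this
    norm_num at this
  have h4 : a % 4 = 1 ∨ a % 4 = 3 := by omega
  rcases h4 with h4 | h4
  · -- negate everything
    refine ⟨⟨-a, -b, -c, neg_ne_zero.2 ha, neg_ne_zero.2 hb, neg_ne_zero.2 hc, p, pp, hp5, ?_, ?_,
      ?_, ?_⟩⟩
    · rw [hpodd.neg_pow, hpodd.neg_pow, hpodd.neg_pow, ← H]; ring
    · rw [gcd_neg, neg_gcd]; exact hg
    · have : ((-a : ℤ) : ZMod 4) = ((3 : ℤ) : ZMod 4) := by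
        rw [ZMod.intCast_eq_intCast_iff_dvd_sub]
        push_cast
        omega
      simpa using this
    · push_cast
      rw [hb2', neg_zero]
  · refine ⟨⟨a, b, c, ha, hb, hc, p, pp, hp5, H, hg, ?_, hb2'⟩⟩
    have : ((a : ℤ) : ZMod 4) = ((3 : ℤ) : ZMod 4) := by
      rw [ZMod.intCast_eq_intCast_iff_dvd_sub]
      push_cast
      omega
    simpa using this

/-- Step 2: coprime case. -/
theorem step2 (a b c : ℤ) (ha : a ≠ 0) (hb : b ≠ 0) (hc : c ≠ 0) (p : ℕ) (pp : p.Prime)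
    (hp5 : 5 ≤ p) (H : a ^ p + b ^ p = c ^ p) (hg : gcd a b = 1) :
    Nonempty FreyPackage := by
  have hpodd : Odd p := pp.odd_of_ne_two (by omega)
  have hp0 : 0 < p := by omega
  by_cases hb2 : (2 : ℤ) ∣ b
  · exact step3 a b c ha hb hc p pp hp5 H hg hb2
  by_cases ha2 : (2 : ℤ) ∣ a
  · exact step3 b a c hb ha hc p pp hp5 (by rw [add_comm]; exact H) (by rw [gcd_comm]; exact hg) ha2
  -- both odd, so `c` is even
  have hc2 : (2 : ℤ) ∣ c := by
    have hao : Odd a := by rw [← Int.not_even_iff_odd, even_iff_two_dvd]; exact ha2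
    have hbo : Odd b := by rw [← Int.not_even_iff_odd, even_iff_two_dvd]; exact hb2
    have : Even (c ^ p) := by rw [← H]; exact (hao.pow).add_odd (hbo.pow)
    exact even_iff_two_dvd.1 ((Int.even_pow.1 this).1)
  refine step3 a (-c) (-b) ha (neg_ne_zero.2 hc) (neg_ne_zero.2 hb) p pp hp5 ?_ ?_
    ((dvd_neg).2 hc2)
  · rw [hpodd.neg_pow, hpodd.neg_pow, ← H]; ring
  · rw [gcd_neg, ← gcdab_eq_gcdac hp0 H]; exact hg

theorem result (a b c : ℤ) (ha : a ≠ 0) (hb : b ≠ 0) (hc : c ≠ 0) (p : ℕ) (pp : p.Prime) (hp5 : 5 ≤ p) (H : a ^ p + b ^ p = c ^ p) : Nonempty FreyPackage := by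
  have hp0 : p ≠ 0 := by omega
  obtain ⟨a', b', hae, hbe, hu⟩ := extract_gcd a b
  set d : ℤ := gcd a b with hd
  have hd0 : d ≠ 0 := by
    intro h0
    rw [h0, zero_mul] at hae
    exact ha hae
  have hg' : gcd a' b' = 1 := by
    have h1 := normalize_gcd a' b'
    rw [← h1]
    exact normalize_eq_one.2 hu
  have hdc : d ∣ c := by
    rw [← Int.pow_dvd_pow_iff hp0, ← H, hae, hbe, mul_pow, mul_pow, ← mul_add]
    exact dvd_mul_right _ _
  obtain ⟨c', hce⟩ := hdc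
  have ha' : a' ≠ 0 := by
    rintro rfl
    rw [mul_zero] at hae
    exact ha hae
  have hb' : b' ≠ 0 := by
    rintro rfl
    rw [mul_zero] at hbe
    exact hb hbe
  have hc' : c' ≠ 0 := by
    rintro rfl
    rw [mul_zero] at hce
    exact hc hce
  have H' : a' ^ p + b' ^ p = c' ^ p := by
    have h1 : d ^ p * (a' ^ p + b' ^ p) = d ^ p * c' ^ p := by
      rw [mul_add, ← mul_pow, ← mul_pow, ← mul_pow, ← hae, ← hbe, ← hce]
      exact H
    exact mul_left_cancel₀ (pow_ne_zero p hd0) h1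
  exact step2 a' b' c' ha' hb' hc' p pp hp5 H' hg'

end Fermat.Agent.S02
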