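import Fermat.Statements.S08
import Fermat.Agent.Lib.SturmCusp
import Fermat.Agent.Lib.Gamma0Index

set_option autoImplicit false
open WeierstrassCurve WeierstrassCurve.Affine WeierstrassCurve.Affine.Point
open CuspForm ModularFormClass UpperHalfPlane
open ModularForm

namespace Fermat.Agent.S08

theorem result (f : CuspForm (CongruenceSubgroup.Gamma0 1) 2) : f = 0 := by
  exact Fermat.Agent.Lib.SturmCusp.cuspForm_eq_zero_of_index_le 1 (by rw [Fermat.Agent.Lib.Gamma0Index.index_Gamma0_one]; norm_num) f

end Fermat.Agent.S08
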