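-- Statement S10: a Frey package with `p ∈ {5, 7, 13}` does not exist (Kummer: FLT for regular primes
-- with `ℤ[ζ_p]` a PID), so the statement holds vacuously.
import Fermat.Statements.S10
import Fermat.Agent.Lib.Kummer.Small

set_option autoImplicit false
open WeierstrassCurve WeierstrassCurve.Affine WeierstrassCurve.Affine.Point
open CuspForm ModularFormClass UpperHalfPlane
open FreyPackage

namespace Fermat.Agent.S10

theorem result (P : FreyPackage) (hp : P.p = 5 ∨ P.p = 7 ∨ P.p = 13) : ¬ HasGaloisStableCofixedLine (K := AlgebraicClosure ℚ) ℚ P.freyCurve P.p := by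
  exfalso
  refine Fermat.Agent.Lib.Kummer.flt_small (p := P.p) ?_ P.ha0 P.hb0 P.hc0 ?_ P.hFLT
  · rcases hp with h | h | h
    · exact Or.inl h
    · exact Or.inr (Or.inl h)
    · exact Or.inr (Or.inr (Or.inr h))
  · exact (gcd_isUnit_iff P.a P.b).1 (by rw [P.hgcdab]; exact isUnit_one)

end Fermat.Agent.S10
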