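-- Statement S13: a reducible mod-`p` representation of the Frey curve has a Galois-stable cofixed line.
import Fermat.Statements.S13
import Fermat.Agent.S13.Final
import Fermat.Agent.S13.Card
import Fermat.Agent.S13.Exists

set_option autoImplicit false
open WeierstrassCurve WeierstrassCurve.Affine WeierstrassCurve.Affine.Point
open CuspForm ModularFormClass UpperHalfPlane
open FreyPackage

namespace Fermat.Agent.S13

theorem result (P : FreyPackage) (hred : ¬ GaloisRepIsIrreducible (K := AlgebraicClosure ℚ) ℚ P.freyCurve P.p) : HasGaloisStableCofixedLine (K := AlgebraicClosure ℚ) ℚ P.freyCurve P.p := by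
  obtain ⟨hfin, hcard⟩ := Fermat.Agent.S13Lib.card_torsion_le P
  obtain ⟨T, hT0, hT⟩ := Fermat.Agent.S13Lib.exists_torsion_ne_zero P
  have hnt : Nontrivial (Submodule.torsionBy ℤ (P.freyCurve⁄(AlgebraicClosure ℚ)).Point P.p) := by
    refine ⟨⟨⟨T, ?_⟩, 0, fun h => hT0 (congrArg Subtype.val h)⟩⟩
    rw [Submodule.mem_torsionBy_iff, Nat.cast_smul_eq_nsmul]
    exact hT
  unfold GaloisRepIsIrreducible at hred
  push Not at hred
  obtain ⟨N, hN, hbot, htop⟩ := hred hnt
  exact ⟨N, hN, hbot, htop, Fermat.Agent.S13Lib.final_aux hfin hcard N hN hbot htop⟩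

end Fermat.Agent.S13
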