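-- Statement S14: `ExtCitation.ExtVanishingCts p` for `p ≥ 3`.
import Fermat.Statements.S14
import Fermat.Agent.S14.Glue
import Fermat.Agent.S14.EndFinal
import Fermat.Agent.S14.ThmR

set_option autoImplicit false
open ExtCitation

namespace Fermat.Agent.S14

theorem result {p : ℕ} [Fact p.Prime] (h3 : 3 ≤ p) :
    ExtCitation.ExtVanishingCts p := by
  have hp2 : p ≠ 2 := by omega
  exact Fermat.Agent.S14Lib.glue h3 (Fermat.Agent.S14Lib.endProp_of_thmR p hp2
    (fun K _ _ _ _ hζ _ hα hnp _ hβ => Fermat.Agent.S14Lib.thmR p hp2 hζ hα hnp hβ))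

end Fermat.Agent.S14
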