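import Fermat.Statements.S20
import Fermat.Agent.S20.Dual2
import Fermat.Agent.S20.CombCard
import Fermat.Agent.S20.CombT

set_option autoImplicit false
open CuspForm

namespace Fermat.Agent.S20

open Fermat.Agent.S20Lib in
theorem result (N : ℕ) [NeZero N] :
    (Module.finrank ℂ (CuspForm (CongruenceSubgroup.Gamma0 N) 2) : ℚ) = ModularCurve.genusFormula N := by
  have h0 := main_formula N
  have h1 := card_X0 N
  have h2 := two_mul_orbCount_S N
  have h3 := three_mul_orbCount_ST N
  have h4 := orbCount_T N
  rw [h1, h4] at h0
  unfold ModularCurve.genusFormula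
  have h0' : 2 * (Module.finrank ℂ (CuspForm (CongruenceSubgroup.Gamma0 N) 2) : ℚ)
      + orbCount N ModularGroup.S + orbCount N (ModularGroup.S * ModularGroup.T)
      + ModularCurve.cuspCount N = 2 + ModularCurve.dedekindPsi N := by exact_mod_cast h0
  have h2' : 2 * (orbCount N ModularGroup.S : ℚ)
      = ModularCurve.dedekindPsi N + ModularCurve.nuTwo N := by exact_mod_cast h2
  have h3' : 3 * (orbCount N (ModularGroup.S * ModularGroup.T) : ℚ)
      = ModularCurve.dedekindPsi N + 2 * ModularCurve.nuThree N := by exact_mod_cast h3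
  linarith

end Fermat.Agent.S20
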