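import Fermat.Statements.S16
import Fermat.Agent.S16.Reduce
import Fermat.Agent.S16.UBArith
import Fermat.Agent.S16.UB12
import Fermat.Agent.S16.Duality
import Fermat.Agent.S16.LBFinalAux
import Fermat.Agent.S16.UB3
import Fermat.Agent.S16.Ogg

set_option autoImplicit false
open ModularCurve CuspForm
open ModularCurve

namespace Fermat.Agent.S16

open Fermat.Agent.S16Lib in
theorem result
    (p : ℕ) [Fact p.Prime] :
    Nat.card (↥(heckeLatticeAlgebra p ∅) ⧸
        Ideal.map ((latticeRestrictHom p ∅).toRingHom.comp (heckeEvalForms p 2))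
          (eisensteinIdeal p)) =
      eisensteinNumerator p :=
  card_of_bounds p
    (exists_poly_of_congr p (exists_form_of_ker p)
      (fun M f hf => ub_arith p M (ub1 p M f hf) (ub2 p M f hf) (ub3 p M f hf)))
    (dvd_eisEval_of_ker_aux p (heckeT_eisFun p) (heckeU_eisFun p)
      (fun h d hd => dvd_twelve p h d hd))

end Fermat.Agent.S16
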