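import Fermat.Statements.S22
import Fermat.Prelude.Thm_Subgroup_IsArithmetic_exists_nat_mem_strictPeriods_conj
import Fermat.Agent.S22.Sep

set_option autoImplicit false
open CuspForm

namespace Fermat.Agent.S22

open UpperHalfPlane hiding I
open Matrix.SpecialLinearGroup Fermat.Agent.S22Lib
open P2MW.S_ModularForm_heckeT_slash_eq_self_of_mem_Gamma0.ModularForm.HeckeSlashInvariance
open scoped Manifold Topology Real ModularForm MatrixGroups Pointwise

theorem heckeMatrix_props {p : ℕ} (hp : p ≠ 0) (j : ℕ) :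
    (ModularForm.heckeMatrix p j) 1 0 = 0 ∧ 0 < (ModularForm.heckeMatrix p j).val.det ∧
    ∀ m n : ℤ, ∃ m' n' : ℤ, actX (ModularForm.heckeMatrix p j) m n = m' ∧
      actY (ModularForm.heckeMatrix p j) m n = n' := by
  refine ⟨by simp [ModularForm.val_heckeMatrix hp], ?_, fun m n => ⟨m + j * n, p * n, ?_, ?_⟩⟩
  · rw [← Matrix.GeneralLinearGroup.val_det_apply]
    exact ModularForm.det_heckeMatrix_pos p j
  · simp [actX, ModularForm.val_heckeMatrix hp]
  · simp [actY, ModularForm.val_heckeMatrix hp]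

theorem heckeDiagMatrix_props {p : ℕ} (hp : p ≠ 0) :
    (ModularForm.heckeDiagMatrix p) 1 0 = 0 ∧ 0 < (ModularForm.heckeDiagMatrix p).val.det ∧
    ∀ m n : ℤ, ∃ m' n' : ℤ, actX (ModularForm.heckeDiagMatrix p) m n = m' ∧
      actY (ModularForm.heckeDiagMatrix p) m n = n' := by
  refine ⟨by simp [ModularForm.val_heckeDiagMatrix hp], ?_, fun m n => ⟨p * m, n, ?_, ?_⟩⟩
  · rw [← Matrix.GeneralLinearGroup.val_det_apply]
    exact ModularForm.det_heckeDiagMatrix_pos p
  · simp [actX, ModularForm.val_heckeDiagMatrix hp]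
  · simp [actY, ModularForm.val_heckeDiagMatrix hp]

theorem heckeRep_props {p : ℕ} (hp : p ≠ 0) (x : OnePoint (ZMod p)) :
    (heckeRep p x) 1 0 = 0 ∧ 0 < (heckeRep p x).val.det ∧
    ∀ m n : ℤ, ∃ m' n' : ℤ, actX (heckeRep p x) m n = m' ∧ actY (heckeRep p x) m n = n' := by
  induction x using OnePoint.rec with
  | infty => exact heckeDiagMatrix_props hp
  | coe j => exact heckeMatrix_props hp j.val

theorem finite_of_two_le (N : ℕ) [NeZero N] (w : ℕ) (S : Set ℕ) :
    Module.Finite ℤ (CuspForm.heckeAlgebra N ((w : ℤ) + 2) S) := by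
  obtain ⟨M, hMpos, hM⟩ := Subgroup.IsArithmetic.exists_nat_mem_strictPeriods_conj
    (CongruenceSubgroup.Gamma0 N : Subgroup (GL (Fin 2) ℝ))
  have : Fact ((0 : ℝ) < (M : ℝ)) := ⟨by exact_mod_cast hMpos⟩
  have hM' : IsCommonPeriod N (M : ℝ) := hM
  refine finite_adjoin_of_dual_lattice (heckeGenerators N ((w : ℤ) + 2) S) (periodLattice w hM')
    (periodLattice_fg w hM') ?_ (periodLattice_sep w hM')
  rintro T (⟨ℓ, hℓ, hℓN, -, rfl⟩ | ⟨q, hqN, hq, -, rfl⟩) l hl
  · have : Fact ℓ.Prime := ⟨hℓ⟩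
    refine periodLattice_comp_mem w hM' (heckeRep ℓ) (fun x => (heckeRep_props hℓ.ne_zero x).1)
      (fun x => (heckeRep_props hℓ.ne_zero x).2.1) (fun x => (heckeRep_props hℓ.ne_zero x).2.2)
      _ (fun f => ?_) (fun g hg => ?_) l hl
    · rw [CuspForm.coe_heckeTLin_apply, heckeT_eq_sum_onePoint]
    · have hcN : (N : ℤ) ∣ g 1 0 :=
        (ZMod.intCast_zmod_eq_zero_iff_dvd _ _).mp (CongruenceSubgroup.Gamma0_mem.mp hg)
      refine ⟨MulAction.toPerm (redMatrix ℓ g), fun x => ?_⟩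
      obtain ⟨g', hg', hmul⟩ := heckeRep_mul hℓN g hcN x
      exact ⟨g', CongruenceSubgroup.Gamma0_mem.mpr
        ((ZMod.intCast_zmod_eq_zero_iff_dvd _ _).mpr hg'), hmul⟩
  · have : NeZero q := ⟨hq.ne_zero⟩
    refine periodLattice_comp_mem w hM' (fun x : ZMod q => ModularForm.heckeMatrix q x.val)
      (fun x => (heckeMatrix_props hq.ne_zero x.val).1)
      (fun x => (heckeMatrix_props hq.ne_zero x.val).2.1)
      (fun x => (heckeMatrix_props hq.ne_zero x.val).2.2)
      _ (fun f => ?_) (fun g hg => ?_) l hl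
    · rw [CuspForm.coe_heckeULin_apply, heckeU_eq_sum_zmod]
    · have hcN : (N : ℤ) ∣ g 1 0 :=
        (ZMod.intCast_zmod_eq_zero_iff_dvd _ _).mp (CongruenceSubgroup.Gamma0_mem.mp hg)
      have hc : (q : ℤ) ∣ g 1 0 := (Int.natCast_dvd_natCast.mpr hqN).trans hcN
      refine ⟨affinePerm g ((ZMod.intCast_zmod_eq_zero_iff_dvd _ _).mpr hc), fun x => ?_⟩
      obtain ⟨g', hg', hmul⟩ := heckeMatrix_mul_of_dvd g hc x
      refine ⟨g', ?_, hmul⟩
      rw [CongruenceSubgroup.Gamma0_mem, hg']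
      push_cast
      rw [CongruenceSubgroup.Gamma0_mem.mp hg, mul_zero]

theorem cuspForm_eq_zero_of_le_one (N : ℕ) [NeZero N] {k : ℤ} (hk : k ≤ 1)
    (f : CuspForm (CongruenceSubgroup.Gamma0 N) k) : f = 0 := by
  rcases hk.lt_or_eq with hk | rfl
  · have h0 := modularForm_eq_zero_of_nonpos (by omega : k ≤ 0)
      (ModularFormClass.modularForm f) (CuspFormClass.zero_at_infty f)
    ext τ
    exact congrArg (fun F : ModularForm _ _ => F τ) h0
  · have hmem : (-1 : SL(2, ℤ)) ∈ CongruenceSubgroup.Gamma0 N := by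
      simp [CongruenceSubgroup.Gamma0_mem]
    have h1 : (⇑f : ℍ → ℂ) ∣[(1 : ℤ)] (mapGL ℝ (-1 : SL(2, ℤ)) : GL (Fin 2) ℝ) = ⇑f :=
      SlashInvariantFormClass.slash_action_eq f _ (Subgroup.mem_map_of_mem (mapGL ℝ) hmem)
    ext τ
    have h2 := congrFun h1 τ
    rw [slash_mapGL_apply] at h2
    have h3 : (mapGL ℝ (-1 : SL(2, ℤ)) : GL (Fin 2) ℝ) • τ = τ := by
      apply UpperHalfPlane.ext
      rw [coe_smul_of_det_pos (by simp)]
      simp [num, denom]
    have h4 : denom (mapGL ℝ (-1 : SL(2, ℤ)) : GL (Fin 2) ℝ) τ = -1 := by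
      simp [denom]
    rw [h3, h4] at h2
    have h5 : f τ * (-1 : ℂ) = f τ := by simpa using h2
    have h6 : (2 : ℂ) * f τ = 0 := by linear_combination -h5
    simpa using h6

theorem result (N : ℕ) [NeZero N] (k : ℤ) (S : Set ℕ) :
    Module.Finite ℤ (CuspForm.heckeAlgebra N k S) := by
  by_cases hk : k ≤ 1
  · have : Subsingleton (CuspForm (CongruenceSubgroup.Gamma0 N) k) :=
      ⟨fun a b => by rw [cuspForm_eq_zero_of_le_one N hk a, cuspForm_eq_zero_of_le_one N hk b]⟩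
    have : Subsingleton (Module.End ℂ (CuspForm (CongruenceSubgroup.Gamma0 N) k)) :=
      ⟨fun a b => LinearMap.ext fun x => Subsingleton.elim _ _⟩
    have : Subsingleton (CuspForm.heckeAlgebra N k S) :=
      ⟨fun a b => Subtype.ext (Subsingleton.elim _ _)⟩
    infer_instance
  · obtain ⟨w, rfl⟩ : ∃ w : ℕ, k = (w : ℤ) + 2 := ⟨(k - 2).toNat, by omega⟩
    exact finite_of_two_le N w S

end Fermat.Agent.S22
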