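import Fermat.Statements.S24
import Fermat.Agent.S24.Final
import Fermat.Agent.S20

set_option autoImplicit false
open ModularCurve

namespace Fermat.Agent.S24

open Fermat.Agent.S24Lib in
theorem result (N : ℕ) [NeZero N]
    [AlgebraicCurve.HasCanonicalDivisor (K := AlgebraicClosure ℚ) (F := ↥(ModularCurve.modularFunctionFieldBar N))] :
    (AlgebraicCurve.genus (AlgebraicClosure ℚ) ↥(ModularCurve.modularFunctionFieldBar N) : ℚ)
      = ModularCurve.genusFormula N := by
  rw [← Fermat.Agent.S20.result N]
  have h : ∃ ω : Ω[FN N⁄Kb], ω ≠ 0 := exists_ne_zero (isFF N)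
  have hd := degree_canonical N h.choose_spec (AlgebraicCurve.canonicalDivisorOf h.choose_spec)
    (fun v => AlgebraicCurve.canonicalDivisorOf_apply h.choose_spec v)
  have hg : AlgebraicCurve.genus (AlgebraicClosure ℚ) ↥(ModularCurve.modularFunctionFieldBar N)
      = Module.finrank ℂ (CuspForm (CongruenceSubgroup.Gamma0 N) 2) := by
    unfold AlgebraicCurve.genus
    rw [dif_pos h, hd]
    omega
  rw [hg]

end Fermat.Agent.S24
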