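-- Statement S28 (Igusa: the base change of the Igusa model of X₀(N) to characteristic ℓ ∤ N is integral).
import Fermat.Statements.S28
import Fermat.Agent.S28.Reduce
import Fermat.Agent.S28.Chart
import Fermat.Agent.S28.QepS
import Fermat.Agent.S28.Val
import Fermat.Agent.S28.TConj
import Fermat.Agent.S28.HCoef
import Fermat.Agent.S28.HIrr

set_option autoImplicit false
open AlgebraicGeometry CategoryTheory CategoryTheory.Limits ModularCurve ModularCurve.IgusaScheme
noncomputable section
set_option autoImplicit false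
open ModularCurve ModularCurve.IgusaScheme

namespace Fermat.Agent.S28

open Fermat.Agent.S28Lib in
set_option maxHeartbeats 4000000 in
set_option synthInstance.maxHeartbeats 400000 in
theorem result
    (N : ℕ) [NeZero N] (ℓ : ℕ) [Fact ℓ.Prime] (hℓN : ¬ ℓ ∣ N)
    (K : Type) [Field K] [CharP K ℓ] [Algebra ↥(GaloisRep.ratLocalizedAt ℓ) K] :
    IsIntegral ↑(pullback (igusaTo N ℓ)
      (Spec.map (CommRingCat.ofHom (algebraMap ↥(GaloisRep.ratLocalizedAt ℓ) K)))) := by
  obtain ⟨V, hV⟩ := exists_goodV ℓ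
  obtain ⟨tV, ht, hu⟩ := exists_tV N ℓ hℓN V hV
  have hFin : IsQEP N ℓ (chartAlgFin N ℓ) :=
    isQEP_fin_aux N ℓ V hV tV ht hu (fun i => hcoef_fin N ℓ V hV tV ht hu i)
      (fun B hB h => hirr_fin N ℓ hℓN V hV tV ht hu B hB h)
  exact isIntegral_pullback_of_isQEP N ℓ K hFin (isQEP_inf N ℓ hFin) (isQEP_mid N ℓ hFin)

end Fermat.Agent.S28
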