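-- Statement S41: level raising (Ribet, Diamond–Taylor).
import Fermat.Statements.S41
import Fermat.Agent.S41.Bridge7
import Fermat.Agent.S41.Bridge8
import Fermat.Agent.S41.Red
import Fermat.Agent.S41.CoreChain2
import Fermat.Agent.S41.EFinal

set_option autoImplicit false
open WeierstrassCurve WeierstrassCurve.Affine WeierstrassCurve.Affine.Point
open scoped CongruenceSubgroup
open WeierstrassCurve

namespace Fermat.Agent.S41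

open Fermat.Agent.S41Lib in
theorem result
    (E : WeierstrassCurve ℚ) [E.IsElliptic] {W : WeierstrassCurve ℤ} (hW : W.IsIntegralModelOf E)
    {p N q' : ℕ} (hp : p.Prime) (hp2 : p ≠ 2) (hN : 0 < N) (hq' : q'.Prime) (hq'N : ¬ q' ∣ N) (hq'p : q' ≠ p)
    (hirr : GaloisRepIsIrreducible (K := AlgebraicClosure ℚ) ℚ E p)
    (f : CuspForm (CongruenceSubgroup.Gamma0 N) 2) (𝔪 : Ideal (integralClosure ℤ ℂ))
    (hf : f.IsNormalizedEigenform) (hmax : 𝔪.IsMaximal) (hpm : (p : integralClosure ℤ ℂ) ∈ 𝔪)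
    (hcong : ∀ ℓ : ℕ, ℓ.Prime → W.IsGoodPrimeFor ℓ → ¬ ℓ ∣ N → ℓ ≠ p →
      ∃ a : integralClosure ℤ ℂ, (a : ℂ) = ModularFormClass.qCoeff f ℓ ∧
        a - ((W.apOfModel ℓ : ℤ) : integralClosure ℤ ℂ) ∈ 𝔪)
    (hLR : ∃ a : integralClosure ℤ ℂ, (a : ℂ) = ModularFormClass.qCoeff f q' ∧
      a ^ 2 - ((q' : integralClosure ℤ ℂ) + 1) ^ 2 ∈ 𝔪) :
    ∃ (g : CuspForm (CongruenceSubgroup.Gamma0 (N * q')) 2) (𝔪' : Ideal (integralClosure ℤ ℂ)),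
      g.IsNormalizedEigenform ∧ 𝔪'.IsMaximal ∧ (p : integralClosure ℤ ℂ) ∈ 𝔪' ∧
      (∀ ℓ : ℕ, ℓ.Prime → W.IsGoodPrimeFor ℓ → ¬ ℓ ∣ N * q' → ℓ ≠ p →
        ∃ a : integralClosure ℤ ℂ, (a : ℂ) = ModularFormClass.qCoeff g ℓ ∧
          a - ((W.apOfModel ℓ : ℤ) : integralClosure ℤ ℂ) ∈ 𝔪') ∧
      g.IsNewAt q' := by
  classical
  have : NeZero N := ⟨hN.ne'⟩
  have : NeZero q' := ⟨hq'.ne_zero⟩
  have : NeZero (N * q') := ⟨Nat.mul_ne_zero hN.ne' hq'.ne_zero⟩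
  -- step 1: the period class of `f`
  have hφ0 := periodMap_ne_zero hf.ne_zero
  have hφpar := periodMap_parabolic f
  -- step 2: reduction
  obtain ⟨x0, hx0par, hx0ne, hx0eig⟩ := red hp _ hφ0 hφpar 𝔪 hmax hpm
  have hx0eig' : ∀ (l : ℕ) [NeZero l], l.Prime → ¬ l ∣ N → ∀ (a : integralClosure ℤ ℂ) (n : ℤ),
      (a : ℂ) = ModularFormClass.qCoeff f l → a - (n : integralClosure ℤ ℂ) ∈ 𝔪 →
      ∃ w, heckeHomU N l x0 = n • x0 + (p : ℤ) • w := by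
    intro l _ hl hlN a n ha han
    obtain ⟨w, hw⟩ := hx0eig l a n (by rw [ha]; exact heckeHomU_periodMap_of_normalized hf hl hlN) han
    exact ⟨w, by rw [hw, natCast_zsmul]⟩
  -- the auxiliary prime
  obtain ⟨ℓ₀, hℓ₀, hℓ₀good, hℓ₀1, hℓ₀p⟩ := Fermat.Agent.S41E.eside E hW hp hp2 hirr (N * q' * p)
    (Nat.mul_pos (Nat.mul_pos hN hq'.pos) hp.pos)
  have : NeZero ℓ₀ := ⟨hℓ₀.ne_zero⟩
  have : NeZero (N * ℓ₀) := ⟨Nat.mul_ne_zero hN.ne' hℓ₀.ne_zero⟩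
  have hℓ₀1' : ℓ₀ ≡ 1 [MOD N * q'] := hℓ₀1.of_mul_right p
  have hℓ₀Nq : ¬ ℓ₀ ∣ N * q' := not_dvd_of_modEq_one hℓ₀ hℓ₀1'
  have hℓ₀N : ¬ ℓ₀ ∣ N := fun h => hℓ₀Nq (h.mul_right q')
  have hℓ₀nep : ℓ₀ ≠ p := by
    rintro rfl
    exact not_dvd_of_modEq_one hℓ₀ hℓ₀1 (Dvd.intro_left _ rfl)
  -- the sign
  obtain ⟨a, ha, haLR⟩ := hLR
  obtain ⟨eps, heps, haeps⟩ : ∃ eps : ℤ, eps * eps = 1 ∧
      a - ((eps * (q' + 1) : ℤ) : integralClosure ℤ ℂ) ∈ 𝔪 := by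
    have h1 : (a - ((q' : integralClosure ℤ ℂ) + 1)) * (a + ((q' : integralClosure ℤ ℂ) + 1)) ∈ 𝔪 := by
      have : (a - ((q' : integralClosure ℤ ℂ) + 1)) * (a + ((q' : integralClosure ℤ ℂ) + 1)) =
          a ^ 2 - ((q' : integralClosure ℤ ℂ) + 1) ^ 2 := by ring
      rw [this]; exact haLR
    rcases hmax.isPrime.mem_or_mem h1 with h2 | h2
    · exact ⟨1, by norm_num, by push_cast; simpa using h2⟩
    · refine ⟨-1, by norm_num, ?_⟩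
      push_cast
      have : a - -1 * ((q' : integralClosure ℤ ℂ) + 1) = a + ((q' : integralClosure ℤ ℂ) + 1) := by
        ring
      rw [this]; exact h2
  obtain ⟨wr, hTr⟩ := hx0eig' q' hq' hq'N a (eps * (q' + 1)) ha haeps
  obtain ⟨aW, haW, haWm⟩ := hcong ℓ₀ hℓ₀ hℓ₀good hℓ₀N hℓ₀nep
  obtain ⟨wW, hTW⟩ := hx0eig' ℓ₀ hℓ₀ hℓ₀N aW (W.apOfModel ℓ₀) haW haWm
  have hnW : ¬ (p : ℤ) ∣ W.apOfModel ℓ₀ - ((ℓ₀ : ℤ) + 1) := by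
    intro h
    apply hℓ₀p
    have := (dvd_neg.mpr h)
    rwa [neg_sub] at this
  have hx0ne' : ¬ ∃ w, x0 = (p : ℤ) • w := by
    rintro ⟨w, hw⟩
    exact hx0ne ⟨w, by rw [hw, natCast_zsmul]⟩
  -- steps 3, 4, 5
  obtain ⟨x2, hx2par, hx2ne, -, -, hx2U, hx2eig⟩ := core_chain_uncond hq' hq'N hℓ₀ hℓ₀1' hp hp2
    hq'p.symm x0 hx0par hx0ne' eps heps wr hTr (W.apOfModel ℓ₀) wW hTW hnW
  -- steps 6, 7
  obtain ⟨g, 𝔪', hg, h𝔪', hp𝔪', hgcong, hgnew⟩ := exists_eigenform_of_class (M := N * q') (p := p)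
    hq' (Dvd.intro_left N rfl)
    (fun l => l.Prime ∧ W.IsGoodPrimeFor l ∧ ¬ l ∣ N * q' ∧ l ≠ p) (fun l => W.apOfModel l)
    (fun l hl => ⟨hl.1, hl.2.2.1⟩) x2 hx2par hx2U
    (by
      rintro ⟨w, hw⟩
      exact hx2ne ⟨w, by rw [hw, natCast_zsmul]⟩) hp.ne_zero
    (by
      intro l _ hl
      obtain ⟨al, hal, halm⟩ := hcong l hl.1 hl.2.1 (fun h => hl.2.2.1 (h.mul_right q')) hl.2.2.2
      obtain ⟨wl, hwl⟩ := hx0eig' l hl.1 (fun h => hl.2.2.1 (h.mul_right q')) al (W.apOfModel l)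
        hal halm
      obtain ⟨w, hw⟩ := hx2eig l hl.1 hl.2.2.1 (W.apOfModel l) wl hwl
      exact ⟨w, by rw [hw, natCast_zsmul]; abel⟩)
  exact ⟨g, 𝔪', hg, h𝔪', hp𝔪', fun l hl hgood hlN hlp => hgcong l ⟨hl, hgood, hlN, hlp⟩, hgnew⟩

end Fermat.Agent.S41
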