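-- Statement S49: Deligne–Serre lifting lemma for lattice-realised formal eigensystems.
import Fermat.Statements.S49
import Fermat.Agent.S49.Formal
import Fermat.Agent.S49.CommAlg
import Fermat.Agent.S49.Hecke

set_option autoImplicit false
open CuspForm EisensteinWeightOne CongruenceSubgroup ModularFormClass
open FLT FLT.AbstractIntegralStructure

namespace Fermat.Agent.S49

open Fermat.Agent.S49Lib

theorem result
    {N : ℕ} [NeZero N] (h : CuspForm.HasIntegralBasis N) {a : ℕ → ℤ}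
    (heig : FormalHecke.IsEigensystem
      (fun ℓ => if ℓ ∣ N then 0 else ((chiNegThree ℓ : ℤ) : ℤ)) a)
    (hreal : CuspForm.IsLatticeRealized N a) :
    ∃ (f : CuspForm (Gamma0 N) 2) (_ : f.IsNormalizedEigenform)
      (𝔪' : Ideal (integralClosure ℤ ℂ)), 𝔪'.IsMaximal ∧
      ((3 : ℕ) : integralClosure ℤ ℂ) ∈ 𝔪' ∧
      ∀ (ℓ : ℕ) (_ : ℓ.Prime) (_ : ¬ ℓ ∣ N),
        ∃ c : integralClosure ℤ ℂ, (c : ℂ) = ModularFormClass.qCoeff f ℓ ∧
          c - (a ℓ : integralClosure ℤ ℂ) ∈ 𝔪' := by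
  classical
  obtain ⟨f₀, hf₀, af, haf, hcong⟩ := hreal
  have hafa : ∀ n, (3 : ℤ) ∣ af n - a n := fun n => by
    have := dvd_add (hcong n) (three_dvd_bridgeProduct_sub a n)
    simpa using this
  have hfd := finiteDimensional_of_hasIntegralBasis h
  have hfin := heckeAlgebra_finite h
  let ι : CuspForm.heckeAlgebra N 2 ∅ →+* Module.End ℂ (CuspForm (Gamma0 N) 2) :=
    (CuspForm.heckeAlgebra N 2 ∅).val.toRingHom
  have hι : Function.Injective ι := Subtype.val_injective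
  have hJ : annIdeal f₀ ≠ ⊤ := by
    intro htop
    have h1 : (1 : CuspForm.heckeAlgebra N 2 ∅) ∈ annIdeal f₀ := htop ▸ Submodule.mem_top
    obtain ⟨g, hg, hfg⟩ := h1
    obtain ⟨m, hm⟩ := hg 1
    have hfg' : f₀ = (3 : ℂ) • g := hfg
    have h2 : qCoeff f₀ 1 = 3 * m := by
      rw [hfg', qCoeff_smul, hm]
    rw [← haf 1] at h2
    have h3 : af 1 = 3 * m := by exact_mod_cast h2
    have h4 := hafa 1
    rw [heig.1, h3] at h4
    omega
  obtain ⟨v, χ, 𝔪', hv0, hv, h𝔪', hχJ⟩ := deligneSerre_lift ι hι (annIdeal f₀) hJ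
  let e : ℕ → ℂ := fun ℓ => if ℓ ∣ N then 0 else (ℓ : ℂ)
  let lam : ℕ → ℂ := fun ℓ =>
    if hℓ : ℓ.Prime then
      (if hN : ℓ ∣ N then
        ((χ (heckeAlgebra.U hℓ hN (Set.notMem_empty ℓ)) : integralClosure ℤ ℂ) : ℂ)
      else ((χ (heckeAlgebra.T hℓ hN (Set.notMem_empty ℓ)) : integralClosure ℤ ℂ) : ℂ))
    else 0
  have hrec : ∀ ℓ : ℕ, ℓ.Prime → ∀ n : ℕ,
      qCoeff v (ℓ * n) + e ℓ * (if ℓ ∣ n then qCoeff v (n / ℓ) else 0) = lam ℓ * qCoeff v n := by
    intro ℓ hℓ n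
    by_cases hN : ℓ ∣ N
    · have h1 : CuspForm.heckeULin 2 hN v = _ := hv (heckeAlgebra.U hℓ hN (Set.notMem_empty ℓ))
      have h2 := congrArg (fun g : CuspForm (Gamma0 N) 2 => qCoeff (⇑g) n) h1
      simp only [qCoeff_heckeULin hℓ hN, qCoeff_smul] at h2
      simp only [e, lam, hℓ, hN, dif_pos, if_pos, zero_mul, add_zero]
      exact h2
    · have h1 : CuspForm.heckeTLin 2 hℓ hN v = _ := hv (heckeAlgebra.T hℓ hN (Set.notMem_empty ℓ))
      have h2 := congrArg (fun g : CuspForm (Gamma0 N) 2 => qCoeff (⇑g) n) h1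
      simp only [qCoeff_heckeTLin hℓ hN, qCoeff_smul] at h2
      simp only [e, lam, hℓ, hN, dif_pos, dif_neg, if_neg, not_false_eq_true]
      exact h2
  have hb1 : qCoeff v 1 ≠ 0 := by
    intro h1
    exact hv0 (eq_zero_of_qCoeff v (eq_zero_of_hecke_rec (qCoeff_zero_idx v) h1 hrec))
  set c₁ : ℂ := qCoeff v 1 with hc₁
  let g : CuspForm (Gamma0 N) 2 := c₁⁻¹ • v
  have hg : ∀ n, qCoeff g n = c₁⁻¹ * qCoeff v n := fun n => qCoeff_smul _ _ _
  have hg1 : qCoeff g 1 = 1 := by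
    rw [hg, ← hc₁]
    exact inv_mul_cancel₀ hb1
  have hrecg : ∀ ℓ : ℕ, ℓ.Prime → ∀ n : ℕ,
      qCoeff g (ℓ * n) + e ℓ * (if ℓ ∣ n then qCoeff g (n / ℓ) else 0) = lam ℓ * qCoeff g n := by
    intro ℓ hℓ n
    have := hrec ℓ hℓ n
    simp only [hg]
    split_ifs at this ⊢ with hd
    · linear_combination c₁⁻¹ * this
    · linear_combination c₁⁻¹ * this
  have hlam : ∀ ℓ : ℕ, ℓ.Prime → lam ℓ = qCoeff g ℓ := by
    intro ℓ hℓ
    have := hrecg ℓ hℓ 1
    have hd : ¬ ℓ ∣ 1 := fun hd => hℓ.one_lt.ne' (Nat.dvd_one.mp hd)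
    rw [if_neg hd, mul_one, mul_zero, add_zero, hg1, mul_one] at this
    exact this.symm
  have hgeig : FormalHecke.IsEigensystem e (fun n => qCoeff g n) := by
    refine ⟨hg1, ?_⟩
    intro ℓ hℓ n
    have := hrecg ℓ hℓ n
    rw [hlam ℓ hℓ] at this
    exact this
  have hnorm : g.IsNormalizedEigenform := by
    refine ⟨hg1, isEigensystem_mul_of_coprime hgeig, ?_, ?_⟩
    · intro p r hp hpN
      have := isEigensystem_prime_pow hgeig p r hp
      simpa only [e, if_neg hpN] using this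
    · intro p r hp hpN
      have := isEigensystem_prime_pow hgeig p r hp
      simpa only [e, if_pos hpN, zero_mul, sub_zero] using this
  refine ⟨g, hnorm, 𝔪', h𝔪', ?_, ?_⟩
  · -- 3 ∈ 𝔪'
    have h3 : ((3 : ℕ) : CuspForm.heckeAlgebra N 2 ∅) ∈ annIdeal f₀ := by
      refine ⟨f₀, by rw [← SetLike.mem_coe, ← qIntegralSet_eq_intSub]; exact hf₀, ?_⟩
      change (((3 : ℕ) : Module.End ℂ (CuspForm (Gamma0 N) 2))) f₀ = _
      rw [show (((3 : ℕ) : Module.End ℂ (CuspForm (Gamma0 N) 2))) = ((3 : ℕ) : ℂ) • 1 by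
        rw [Algebra.smul_def, mul_one, map_natCast]]
      simp
    have := hχJ _ h3
    rwa [map_natCast] at this
  · intro ℓ hℓ hℓN
    refine ⟨χ (heckeAlgebra.T hℓ hℓN (Set.notMem_empty ℓ)), ?_, ?_⟩
    · rw [← hlam ℓ hℓ]
      simp only [lam, hℓ, hℓN, dif_pos, dif_neg, not_false_eq_true]
    · have hmem : (heckeAlgebra.T hℓ hℓN (Set.notMem_empty ℓ) -
          ((a ℓ : ℤ) : CuspForm.heckeAlgebra N 2 ∅)) ∈ annIdeal f₀ := by
        rw [mem_annIdeal]
        have hval : ((heckeAlgebra.T hℓ hℓN (Set.notMem_empty ℓ) -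
          ((a ℓ : ℤ) : CuspForm.heckeAlgebra N 2 ∅) : CuspForm.heckeAlgebra N 2 ∅) :
            Module.End ℂ (CuspForm (Gamma0 N) 2)) f₀ =
            CuspForm.heckeTLin 2 hℓ hℓN f₀ - ((a ℓ : ℤ) : ℂ) • f₀ := by
          simp only [AddSubgroupClass.coe_sub, heckeAlgebra.coe_T, LinearMap.sub_apply]
          congr 1
          change (((a ℓ : ℤ) : Module.End ℂ (CuspForm (Gamma0 N) 2))) f₀ = _
          rw [show (((a ℓ : ℤ) : Module.End ℂ (CuspForm (Gamma0 N) 2))) = ((a ℓ : ℤ) : ℂ) • 1 by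
            rw [Algebra.smul_def, mul_one]; simp]
          rfl
        rw [hval]
        apply exists_eq_three_smul
        intro n
        have hcoef : qCoeff (⇑(CuspForm.heckeTLin 2 hℓ hℓN f₀ - ((a ℓ : ℤ) : ℂ) • f₀)) n =
            qCoeff f₀ (ℓ * n) + (ℓ : ℂ) * (if ℓ ∣ n then qCoeff f₀ (n / ℓ) else 0) -
              (a ℓ : ℂ) * qCoeff f₀ n := by
          have := (qCoeffLin N n).map_sub (CuspForm.heckeTLin 2 hℓ hℓN f₀) (((a ℓ : ℤ) : ℂ) • f₀)
          simp only [qCoeffLin_apply] at this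
          rw [this, qCoeff_heckeTLin, qCoeff_smul]
        have hE := heig.2 ℓ hℓ n
        simp only [if_neg hℓN] at hE
        have hχ3 := chiNegThree_congr ℓ
        obtain ⟨k1, hk1⟩ := hafa (ℓ * n)
        obtain ⟨k2, hk2⟩ := hafa (n / ℓ)
        obtain ⟨k3, hk3⟩ := hafa n
        obtain ⟨k4, hk4⟩ := hχ3
        rw [hcoef, ← haf, ← haf, ← haf]
        by_cases hd : ℓ ∣ n
        · rw [if_pos hd] at hE ⊢
          refine ⟨k1 + k4 * af (n / ℓ) + chiNegThree ℓ * k2 - a ℓ * k3, ?_⟩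
          have : af (ℓ * n) + (ℓ : ℤ) * af (n / ℓ) - a ℓ * af n =
              3 * (k1 + k4 * af (n / ℓ) + chiNegThree ℓ * k2 - a ℓ * k3) := by
            linear_combination hk1 + af (n / ℓ) * hk4 + chiNegThree ℓ * hk2 - a ℓ * hk3 + hE
          exact_mod_cast this
        · rw [if_neg hd] at hE ⊢
          refine ⟨k1 - a ℓ * k3, ?_⟩
          have : af (ℓ * n) + (ℓ : ℤ) * 0 - a ℓ * af n = 3 * (k1 - a ℓ * k3) := by
            linear_combination hk1 - a ℓ * hk3 + hE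
          exact_mod_cast this
      have := hχJ _ hmem
      simpa using this

end Fermat.Agent.S49
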