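-- Statement S51: for a semistable integral Weierstrass curve, the mod-3 or the mod-5
-- representation is irreducible.
import Fermat.Statements.S51
import Fermat.Agent.S51.Final
import Fermat.Agent.S51.Descent
import Fermat.Agent.S51.Galois

set_option autoImplicit false
open WeierstrassCurve WeierstrassCurve.Affine WeierstrassCurve.Affine.Point
open CuspForm ModularFormClass UpperHalfPlane
open WeierstrassCurve

namespace Fermat.Agent.S51

theorem result (W : WeierstrassCurve ℤ) (hΔ : W.Δ ≠ 0) (hW : W.IsSemistableModel) : W.ModRepIsIrreducible 3 ∨ W.ModRepIsIrreducible 5 := by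
  by_contra hcon
  rw [not_or] at hcon
  obtain ⟨x₀, s, m, x₁, x₂, h3, hs, -, hne, hp1, hp2⟩ :=
    Fermat.Agent.S51Lib.reducible_data W hΔ hcon.1 hcon.2
  exact Fermat.Agent.S51lib.false_of_data Fermat.Agent.S51lib.descent_15 W hΔ hW x₀ s x₁ x₂
    h3 hs hne hp1 hp2

end Fermat.Agent.S51
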