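-- Statement S57 (row 51): Algebra.PatchingLevel.free_and_ker_eq_span
import Fermat.Statements.S57
import Mathlib

set_option autoImplicit false
open Algebra Algebra.PatchingLevel

namespace Fermat.Agent.S57

open CategoryTheory Abelian RingTheory.Sequence IsLocalRing MvPowerSeries

/-! ### Homological part: a module with a long enough regular sequence is free -/

/-- Finite length modules have projective dimension at most that of the residue field. -/
theorem hasProjectiveDimensionLT_of_isFiniteLength {A : Type} [CommRing A] [IsLocalRing A] (n : ℕ)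
    (hk : HasProjectiveDimensionLT (ModuleCat.of A (A ⧸ maximalIdeal A)) n)
    (L : Type) [AddCommGroup L] [Module A L] (hL : IsFiniteLength A L) :
    HasProjectiveDimensionLT (ModuleCat.of A L) n := by
  induction hL with
  | of_subsingleton =>
    rename_i M _ _ _
    have : Limits.IsZero (ModuleCat.of A M) := ModuleCat.isZero_of_subsingleton _
    have := this.hasProjectiveDimensionLT_zero
    exact hasProjectiveDimensionLT_of_ge _ 0 n (Nat.zero_le _)
  | of_simple_quotient hN ih =>
    rename_i M _ _ N hs
    obtain ⟨I, hI, ⟨e⟩⟩ := isSimpleModule_iff_quot_maximal.mp hs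
    have hIm : I = maximalIdeal A := IsLocalRing.eq_maximalIdeal hI
    subst hIm
    have h3 : HasProjectiveDimensionLT (ModuleCat.of A (M ⧸ N)) n :=
      hasProjectiveDimensionLT_of_iso (e.symm.toModuleIso) n
    have hS := LinearMap.shortExact_shortComplexKer (f := N.mkQ) (Submodule.mkQ_surjective N)
    have h1 : HasProjectiveDimensionLT (ModuleCat.of A (LinearMap.ker N.mkQ)) n :=
      hasProjectiveDimensionLT_of_iso
        ((LinearEquiv.ofEq _ _ (Submodule.ker_mkQ N).symm).toModuleIso) n
    exact hS.hasProjectiveDimensionLT_X₂ n h1 h3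

theorem isArtinian_of_finite_of_isTorsionBySet_maximal {S Q : Type} [CommRing S] [AddCommGroup Q]
    [Module S Q] [Module.Finite S Q] (I : Ideal S) (hI : I.IsMaximal)
    (hQ : Module.IsTorsionBySet S Q I) : IsArtinian S Q := by
  letI := hQ.module
  letI : Field (S ⧸ I) := Ideal.Quotient.field I
  haveI : IsScalarTower S (S ⧸ I) Q := hQ.isScalarTower
  haveI : Module.Finite (S ⧸ I) Q := Module.Finite.of_restrictScalars_finite S (S ⧸ I) Q
  haveI : IsArtinian (S ⧸ I) Q := inferInstance
  exact isArtinian_of_surjective_algebraMap (R := S ⧸ I) Ideal.Quotient.mk_surjective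

theorem isFiniteLength_quot {S A N : Type} [CommRing S] [CommRing A]
    [IsNoetherianRing A] [Algebra S A] [AddCommGroup N] [Module S N] [Module A N]
    [IsScalarTower S A N] [Module.Finite S N]
    (xs : List S) (hmax : (Ideal.ofList xs).IsMaximal) :
    IsFiniteLength A (N ⧸ (Ideal.ofList (xs.map (algebraMap S A)) • ⊤ : Submodule A N)) := by
  have hfin : Module.Finite A N := Module.Finite.of_restrictScalars_finite S A N
  have hJ : ∀ s ∈ Ideal.ofList xs, ∀ x : N,
      s • x ∈ (Ideal.ofList (xs.map (algebraMap S A)) • ⊤ : Submodule A N) := by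
    intro s hs x
    rw [← algebraMap_smul A s]
    apply Submodule.smul_mem_smul _ Submodule.mem_top
    rw [← Ideal.map_ofList]
    exact Ideal.mem_map_of_mem _ hs
  generalize (Ideal.ofList (xs.map (algebraMap S A)) • ⊤ : Submodule A N) = J at hJ ⊢
  rw [isFiniteLength_iff_isNoetherian_isArtinian]
  have hnoeth : IsNoetherian A N := inferInstance
  refine ⟨inferInstance, ?_⟩
  haveI : Module.Finite S (N ⧸ J) :=
    Module.Finite.of_surjective (J.mkQ.restrictScalars S) (Submodule.mkQ_surjective J)
  have key : IsArtinian S (N ⧸ J) := by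
    refine isArtinian_of_finite_of_isTorsionBySet_maximal (S := S) (Q := N ⧸ J)
      (Ideal.ofList xs) hmax ?_
    intro q ⟨s, hs⟩
    obtain ⟨x, rfl⟩ := Submodule.mkQ_surjective _ q
    show s • Submodule.Quotient.mk x = 0
    rw [← Submodule.Quotient.mk_smul, Submodule.Quotient.mk_eq_zero]
    exact hJ s hs x
  exact isArtinian_of_tower S key

/-- Special case of Auslander–Buchsbaum: if `A` is a Noetherian local ring whose maximal ideal
is generated by a regular sequence of length `n` and `N` is an `A`-module which is finite free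
over a ring `S` mapping to `A`, where `S` has a regular sequence of length `n` generating a maximal
ideal and mapping into the maximal ideal of `A`, then `N` is free over `A`. -/
theorem free_of_free_of_isRegular {S A N : Type} [CommRing S] [CommRing A] [IsLocalRing A]
    [IsNoetherianRing A] [Algebra S A] [AddCommGroup N] [Module S N] [Module A N]
    [IsScalarTower S A N] [Module.Free S N] [Module.Finite S N] [Nontrivial N]
    (xs : List S) (hxs : IsWeaklyRegular S xs) (hmax : (Ideal.ofList xs).IsMaximal)
    (xs' : List A) (hA : IsRegular A xs') (hm : Ideal.ofList xs' = maximalIdeal A)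
    (hlen : xs.length = xs'.length) (hloc : ∀ x ∈ xs, algebraMap S A x ∈ maximalIdeal A) :
    Module.Free A N := by
  have hfin : Module.Finite A N := Module.Finite.of_restrictScalars_finite S A N
  -- regular sequence on N
  have h1 : IsWeaklyRegular N xs :=
    ((TensorProduct.lid S N).isWeaklyRegular_congr xs).mp hxs.isWeaklyRegular_rTensor
  have h2 : IsWeaklyRegular N (xs.map (algebraMap S A)) :=
    (isWeaklyRegular_map_algebraMap_iff A N xs).mpr h1
  have hmem : ∀ r ∈ xs.map (algebraMap S A), r ∈ maximalIdeal A := by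
    intro r hr
    obtain ⟨x, hx, rfl⟩ := List.mem_map.mp hr
    exact hloc x hx
  have hpd := ModuleCat.projectiveDimension_quotient_eq_add_length_of_isWeaklyRegular
    (ModuleCat.of A N) (xs.map (algebraMap S A)) h2 hmem
  -- pd of residue field
  have hk0 := ModuleCat.projectiveDimension_quotient_eq_length.{0} xs' hA
  have hk : HasProjectiveDimensionLT (ModuleCat.of A (A ⧸ maximalIdeal A)) (xs'.length + 1) := by
    have : HasProjectiveDimensionLE
        (ModuleCat.of A (Shrink.{0} (A ⧸ Ideal.ofList xs'))) xs'.length :=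
      (projectiveDimension_le_iff _ _).mp hk0.le
    rw [← hm]
    exact hasProjectiveDimensionLT_of_iso
      ((Shrink.linearEquiv A (A ⧸ Ideal.ofList xs')).toModuleIso) _
  -- finite length
  have hfl : IsFiniteLength A
      (N ⧸ (Ideal.ofList (xs.map (algebraMap S A)) • ⊤ : Submodule A N)) :=
    isFiniteLength_quot xs hmax
  have hL := hasProjectiveDimensionLT_of_isFiniteLength _ hk _ hfl
  have hle : projectiveDimension (ModuleCat.of A
      (N ⧸ (Ideal.ofList (xs.map (algebraMap S A)) • ⊤ : Submodule A N))) ≤ (xs'.length : ℕ) :=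
    (projectiveDimension_le_iff _ _).mpr hL
  rw [hpd, List.length_map, hlen] at hle
  have h0 : projectiveDimension (ModuleCat.of A N) ≤ (0 : ℕ) := by
    rw [← ENat.WithBot.add_le_add_natCast_right_iff (c := xs'.length)]
    simpa using hle
  have hproj : HasProjectiveDimensionLE (ModuleCat.of A N) 0 :=
    (projectiveDimension_le_iff _ _).mp h0
  have : Projective (ModuleCat.of A N) := (projective_iff_hasProjectiveDimensionLE_zero _).mpr hproj
  have : Module.Projective A N := (IsProjective.iff_projective _).mpr this
  exact Module.free_of_flat_of_isLocalRing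

theorem free_of_semilinear {S A N : Type} [CommRing S] [CommRing A] [IsLocalRing A]
    [IsNoetherianRing A] [AddCommGroup N] [Module A N] [Nontrivial N] (φ : S →+* A) (d : ℕ)
    (b : Fin d → N)
    (hspan : ∀ x : N, ∃ c : Fin d → S, x = ∑ i, φ (c i) • b i)
    (hrel : ∀ c : Fin d → S, ∑ i, φ (c i) • b i = 0 → ∀ i, c i = 0)
    (xs : List S) (hxs : IsWeaklyRegular S xs) (hmax : (Ideal.ofList xs).IsMaximal)
    (xs' : List A) (hA : IsRegular A xs') (hm : Ideal.ofList xs' = maximalIdeal A)
    (hlen : xs.length = xs'.length) (hloc : ∀ x ∈ xs, φ x ∈ maximalIdeal A) :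
    Module.Free A N ∧ Module.Finite A N := by
  letI : Algebra S A := φ.toAlgebra
  letI : Module S N := Module.compHom N φ
  haveI : IsScalarTower S A N :=
    ⟨fun s a x => by show (φ s * a) • x = φ s • (a • x); rw [mul_smul]⟩
  have hli : LinearIndependent S b := Fintype.linearIndependent_iff.mpr (fun c hc => hrel c hc)
  have hsp : ⊤ ≤ Submodule.span S (Set.range b) := by
    intro x _
    obtain ⟨c, rfl⟩ := hspan x
    exact Submodule.sum_mem _ fun i _ =>
      Submodule.smul_mem (Submodule.span S (Set.range b)) (c i) (Submodule.subset_span ⟨i, rfl⟩)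
  let B := Module.Basis.mk hli hsp
  haveI : Module.Free S N := Module.Free.of_basis B
  haveI : Module.Finite S N := Module.Finite.of_basis B
  exact ⟨free_of_free_of_isRegular xs hxs hmax xs' hA hm hlen hloc,
    Module.Finite.of_restrictScalars_finite S A N⟩

/-! ### The regular system of parameters of a power series ring over a DVR -/

section PowerSeries

variable {σ R : Type} [CommRing R]

theorem mem_ofList_map_X_iff (l : List σ) (f : MvPowerSeries σ R) :
    f ∈ Ideal.ofList (l.map (X : σ → MvPowerSeries σ R)) ↔
      ∀ e : σ →₀ ℕ, (∀ t ∈ l, e t = 0) → coeff e f = 0 := by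
  induction l generalizing f with
  | nil =>
    simp only [List.map_nil, Ideal.ofList_nil, Ideal.mem_bot, List.not_mem_nil, false_imp_iff,
      implies_true, forall_const]
    constructor
    · rintro rfl e; simp
    · intro h; ext e; simpa using h e
  | cons t l ih =>
    rw [List.map_cons, Ideal.ofList_cons, Ideal.mem_span_singleton_sup]
    constructor
    · rintro ⟨a, g, hg, rfl⟩ e he
      have h1 : coeff e (a * X t) = 0 :=
        (X_dvd_iff.mp (Dvd.intro_left a rfl)) e (he t List.mem_cons_self)
      have h2 : coeff e g = 0 := (ih g).mp hg e (fun t' ht' => he t' (List.mem_cons_of_mem _ ht'))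
      rw [map_add, h1, h2, add_zero]
    · intro h
      classical
      let f₁ : MvPowerSeries σ R := fun e => if e t = 0 then 0 else coeff e f
      let f₂ : MvPowerSeries σ R := fun e => if e t = 0 then coeff e f else 0
      have hf₁ : X t ∣ f₁ := by
        rw [X_dvd_iff]
        intro m hm
        show (if m t = 0 then 0 else coeff m f) = 0
        rw [if_pos hm]
      obtain ⟨a, ha⟩ := hf₁
      refine ⟨a, f₂, (ih f₂).mpr ?_, ?_⟩
      · intro e he
        show (if e t = 0 then coeff e f else 0) = 0
        split_ifs with h0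
        · apply h e
          intro t' ht'
          rcases List.mem_cons.mp ht' with rfl | h'
          · exact h0
          · exact he t' h'
        · rfl
      · rw [mul_comm, ← ha]
        ext e
        rw [map_add]
        show (if e t = 0 then 0 else coeff e f) + (if e t = 0 then coeff e f else 0) = coeff e f
        split_ifs <;> simp

theorem isSMulRegular_X_quot (l : List σ) (s : σ) (hs : s ∉ l) :
    IsSMulRegular (MvPowerSeries σ R ⧸
      (Ideal.ofList (l.map (X : σ → MvPowerSeries σ R)) • ⊤ :
        Submodule (MvPowerSeries σ R) (MvPowerSeries σ R)))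
      (X s : MvPowerSeries σ R) := by
  rw [isSMulRegular_quotient_iff_mem_of_smul_mem]
  intro f hf
  rw [smul_eq_mul, Ideal.mul_top] at hf ⊢
  rw [mem_ofList_map_X_iff] at hf ⊢
  intro e he
  have := hf (Finsupp.single s 1 + e) (by
    intro t ht
    have : s ≠ t := fun h => hs (h ▸ ht)
    simp [he t ht, this])
  rw [smul_eq_mul, X, coeff_add_monomial_mul, one_mul] at this
  exact this

theorem isSMulRegular_C_quot (l : List σ) (c : R) (hc : IsSMulRegular R c) :
    IsSMulRegular (MvPowerSeries σ R ⧸
      (Ideal.ofList (l.map (X : σ → MvPowerSeries σ R)) • ⊤ :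
        Submodule (MvPowerSeries σ R) (MvPowerSeries σ R)))
      (C c : MvPowerSeries σ R) := by
  rw [isSMulRegular_quotient_iff_mem_of_smul_mem]
  intro f hf
  rw [smul_eq_mul, Ideal.mul_top] at hf ⊢
  rw [mem_ofList_map_X_iff] at hf ⊢
  intro e he
  have := hf e he
  rw [smul_eq_mul, coeff_C_mul] at this
  exact hc (by simpa using this)

theorem getElem_notMem_take_of_nodup (l : List σ) (hl : l.Nodup) (i : ℕ) (hi : i < l.length) :
    l[i] ∉ l.take i := by
  intro h
  rw [List.mem_take_iff_getElem] at h
  obtain ⟨j, hj, hji⟩ := h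
  have := (hl.getElem_inj_iff).mp hji
  omega

theorem isWeaklyRegular_map_X (l : List σ) (hl : l.Nodup) :
    IsWeaklyRegular (MvPowerSeries σ R) (l.map (X : σ → MvPowerSeries σ R)) := by
  refine ⟨fun i hi => ?_⟩
  rw [← List.map_take, List.getElem_map]
  apply isSMulRegular_X_quot
  exact getElem_notMem_take_of_nodup l hl i _

/-- The regular system of parameters `X₁, …, X_r, c`. -/
noncomputable def params (r : ℕ) (c : R) : List (MvPowerSeries (Fin r) R) :=
  (List.finRange r).map (X : Fin r → MvPowerSeries (Fin r) R) ++ [C c]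

theorem isWeaklyRegular_params (r : ℕ) (c : R) (hc : IsSMulRegular R c) :
    IsWeaklyRegular (MvPowerSeries (Fin r) R) (params r c) := by
  rw [params, isWeaklyRegular_append_iff]
  exact ⟨isWeaklyRegular_map_X _ (List.nodup_finRange r),
    (isWeaklyRegular_singleton_iff _ _).mpr (isSMulRegular_C_quot _ c hc)⟩

theorem ofList_params_eq [IsDomain R] [IsDiscreteValuationRing R] (r : ℕ) (c : R)
    (hc : Irreducible c) :
    Ideal.ofList (params r c) = maximalIdeal (MvPowerSeries (Fin r) R) := by
  apply le_antisymm
  · rw [Ideal.span_le]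
    intro f hf
    simp only [params, List.mem_append, List.mem_map, List.mem_finRange, true_and,
      List.mem_singleton, Set.mem_ofPred_eq] at hf
    simp only [SetLike.mem_coe, mem_maximalIdeal, mem_nonunits_iff,
      MvPowerSeries.isUnit_iff_constantCoeff]
    rcases hf with ⟨i, rfl⟩ | rfl
    · simp
    · simpa using hc.not_isUnit
  · intro f hf
    simp only [mem_maximalIdeal, mem_nonunits_iff,
      MvPowerSeries.isUnit_iff_constantCoeff] at hf
    have h1 : constantCoeff f ∈ maximalIdeal R := hf
    rw [hc.maximalIdeal_eq, Ideal.mem_span_singleton] at h1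
    obtain ⟨u, hu⟩ := h1
    rw [params, Ideal.ofList_append, Ideal.ofList_singleton]
    have h2 : f = (f - C (constantCoeff f)) + C u * C c := by
      rw [hu, map_mul]; ring
    rw [h2]
    apply Ideal.add_mem
    · apply Ideal.mem_sup_left
      rw [mem_ofList_map_X_iff]
      intro e he
      have : e = 0 := by
        ext t
        simpa using he t (List.mem_finRange t)
      subst this
      simp
    · apply Ideal.mem_sup_right
      exact Ideal.mul_mem_left _ _ (Ideal.mem_span_singleton_self _)

end PowerSeries

/-! ### Descent -/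

theorem basis_mem_smul_top_iff {A N ι : Type} [CommRing A] [AddCommGroup N] [Module A N] [Fintype ι]
    (B : Module.Basis ι A N) (I : Ideal A) (n : N) :
    n ∈ (I • ⊤ : Submodule A N) ↔ ∀ j, B.repr n j ∈ I := by
  constructor
  · intro h j
    induction h using Submodule.smul_induction_on' with
    | smul a ha m _ =>
      rw [map_smul, Finsupp.smul_apply, smul_eq_mul]
      exact Ideal.mul_mem_right _ _ ha
    | add x _ y _ hx hy =>
      rw [map_add, Finsupp.add_apply]
      exact Ideal.add_mem _ hx hy
  · intro h
    rw [← B.sum_repr n]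
    exact Submodule.sum_mem _ fun j _ => Submodule.smul_mem_smul (h j) Submodule.mem_top

theorem descent {A R N M : Type} [CommRing A] [Nontrivial A] [CommRing R] [AddCommGroup N]
    [Module A N] [AddCommGroup M] [Module R M] [Nontrivial M] [Module.Free A N] [Module.Finite A N]
    (I : Ideal A) (ψ : A →+* R) (hψ : Function.Surjective ψ) (hI : I ≤ RingHom.ker ψ)
    (π : N →+ M) (π_smul : ∀ (f : A) (x : N), π (f • x) = ψ f • π x)
    (hπ : Function.Surjective π)
    (ker_π : ∀ x : N, π x = 0 ↔ x ∈ (I • ⊤ : Submodule A N)) :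
    Module.Free R M ∧ Module.annihilator R M = ⊥ ∧ RingHom.ker ψ = I := by
  let B := Module.finBasis A N
  have key : ∀ c : Fin (Module.finrank A N) → A, ∑ j, ψ (c j) • π (B j) = 0 → ∀ j, c j ∈ I := by
    intro c hc j
    have h1 : π (∑ j, c j • B j) = 0 := by
      rw [map_sum, ← hc]
      exact Finset.sum_congr rfl fun j _ => π_smul _ _
    rw [ker_π, basis_mem_smul_top_iff B] at h1
    have h2 := h1 j
    rwa [B.repr_sum_self] at h2
  have hli : LinearIndependent R (fun j => π (B j)) := by
    rw [Fintype.linearIndependent_iff]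
    intro g hg j
    choose c hc using fun j => hψ (g j)
    have := key c (by simpa [hc] using hg) j
    rw [← hc j]
    exact hI this
  have hsp : ⊤ ≤ Submodule.span R (Set.range fun j => π (B j)) := by
    intro m _
    obtain ⟨n, rfl⟩ := hπ m
    rw [← B.sum_repr n, map_sum]
    refine Submodule.sum_mem _ fun j _ => ?_
    rw [π_smul]
    exact Submodule.smul_mem _ _ (Submodule.subset_span ⟨j, rfl⟩)
  have hfree : Module.Free R M := Module.Free.of_basis (Module.Basis.mk hli hsp)
  refine ⟨hfree, Module.annihilator_eq_bot.mpr inferInstance, le_antisymm ?_ hI⟩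
  intro f hf
  have hN : Nontrivial N := by
    obtain ⟨m, hm⟩ := exists_ne (0 : M)
    obtain ⟨n, rfl⟩ := hπ m
    exact ⟨n, 0, fun h => hm (by rw [h, map_zero])⟩
  have hpos : 0 < Module.finrank A N := (Module.finrank_pos_iff_of_free A N).mpr hN
  have := key (fun j => if j = ⟨0, hpos⟩ then f else 0) (by
    apply Finset.sum_eq_zero
    intro j _
    by_cases hj : j = ⟨0, hpos⟩
    · simp [hj, (RingHom.mem_ker).mp hf]
    · simp [hj]) ⟨0, hpos⟩
  simpa using this

/-! ### The statement -/

theorem result
    {𝒪 : Type} [CommRing 𝒪] [IsDomain 𝒪] [IsDiscreteValuationRing 𝒪]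
    {r : ℕ} {R : Type} [CommRing R] [Algebra 𝒪 R]
    {M : Type} [AddCommGroup M] [Module R M] [Nontrivial M]
    (L : Algebra.PatchingLevel 𝒪 r R M ⊥) :
    Module.Free R M ∧ Module.annihilator R M = ⊥ ∧
      RingHom.ker L.ψ = Ideal.span (Set.range fun i : Fin r => L.φ (MvPowerSeries.X i)) := by
  obtain ⟨ϖ, hϖ⟩ := IsDiscreteValuationRing.exists_irreducible 𝒪
  have hR : Nontrivial R := by
    by_contra h
    rw [not_nontrivial_iff_subsingleton] at h
    exact not_subsingleton M (Module.subsingleton R M)
  have hN : Nontrivial L.N := by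
    obtain ⟨m, hm⟩ := exists_ne (0 : M)
    obtain ⟨n, rfl⟩ := L.π_surjective m
    exact ⟨n, 0, fun h => hm (by rw [h, map_zero])⟩
  have hw : IsWeaklyRegular (MvPowerSeries (Fin r) 𝒪) (params r ϖ) :=
    isWeaklyRegular_params r ϖ (IsSMulRegular.of_ne_zero hϖ.ne_zero)
  have hm : Ideal.ofList (params r ϖ) = maximalIdeal (MvPowerSeries (Fin r) 𝒪) :=
    ofList_params_eq r ϖ hϖ
  have hmem : ∀ x ∈ params r ϖ, x ∈ maximalIdeal (MvPowerSeries (Fin r) 𝒪) := by
    intro x hx
    rw [← hm]
    exact Ideal.subset_span hx
  have hreg : IsRegular (MvPowerSeries (Fin r) 𝒪) (params r ϖ) :=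
    IsRegular.of_isWeaklyRegular_of_mem_maximalIdeal _ hmem hw
  have hloc : ∀ x ∈ params r ϖ, L.φ.toRingHom x ∈ maximalIdeal (MvPowerSeries (Fin r) 𝒪) := by
    intro x hx
    simp only [params, List.mem_append, List.mem_map, List.mem_finRange, true_and,
      List.mem_singleton] at hx
    rcases hx with ⟨i, rfl⟩ | rfl
    · rw [mem_maximalIdeal, mem_nonunits_iff]
      intro hu
      have h1 : IsUnit (L.ψ (L.φ (MvPowerSeries.X i))) := hu.map L.ψ
      rw [L.ψ_φ_X i] at h1
      exact not_isUnit_zero h1
    · have h1 : L.φ.toRingHom (C ϖ) = C ϖ := L.φ.commutes ϖ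
      rw [h1]
      exact hmem _ (by simp [params])
  obtain ⟨hfree, hfin⟩ := free_of_semilinear (N := L.N) L.φ.toRingHom L.d L.b L.b_span
    (fun c hc i => by simpa using (L.b_rel c).mp hc i)
    (params r ϖ) hw (hm ▸ inferInstance) (params r ϖ) hreg hm rfl hloc
  exact descent (Ideal.span (Set.range fun i : Fin r => L.φ (MvPowerSeries.X i))) L.ψ.toRingHom
    L.ψ_surjective (by
      rw [Ideal.span_le]
      rintro _ ⟨i, rfl⟩
      exact L.ψ_φ_X i) L.π L.π_smul L.π_surjective L.ker_π

end Fermat.Agent.S57
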